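import Mathlib
import Fermat.Agent.S37.Key.Frozen
import Fermat.Agent.S37.Key.Assemble

/-!
# S29, core block (C1): the Eichler–Shimura relation and unramifiedness on `p`-power torsion of
`JZero N`, for the operator `heckeOperatorBar` itself

The frozen statement S37 is phrased through `heckeModuleBar N`, which is the Hecke module only if
`HeckeOperatorsCommuteBar N` holds.  Here we extract from the divisor-level KEY of S37
(`Key.Frozen.divisor_key_of_localInput`, `Key.Assemble.localInput`, both unconditional) the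
operator-level statements, with no commutativity hypothesis:

* `es_eq_zero` : for a prime `ℓ ∤ N p`, a valuation subring `A` of `ℚ̄` over `ℓ`, a Frobenius lift
  `Φ` at `A` and `x ∈ JZero N` with `p ^ n • x = 0`:
  `Φ • Φ • x - T_ℓ (Φ • x) + ℓ • x = 0`, where `T_ℓ = heckeOperatorBar N ℓ`;
* `inertia_smul_eq` : every `σ` in the inertia group of `A` fixes every such `x`.
-/

set_option autoImplicit false

noncomputable section

namespace Fermat.Agent.S29.Core.ESOp

open AlgebraicCurve ModularCurve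
open Fermat.Agent.S24 Fermat.Agent.S24.BridgeInv
open Fermat.Agent.S37.HeckeInputs
open Fermat.Agent.S37.Key.DivisorForm Fermat.Agent.S37.Key

set_option synthInstance.maxHeartbeats 400000

local notation "GalQ" => (AlgebraicClosure ℚ ≃ₐ[ℚ] AlgebraicClosure ℚ)

/-- the class of `psiDegZero Φ D` is the Eichler–Shimura expression of the class of `D`, for the
operator `heckeOperatorAlong` (no commutativity hypothesis). -/
theorem mk_psiDegZero (N ℓ : ℕ) [NeZero N] [NeZero ℓ]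
    [HasPrincipalDivisors Kbar (FF (N * ℓ))] (Φ : GalQ)
    (D : Divisor.degZero (K := Kbar) (F := modularFunctionFieldBar N)) :
    (Pic0.mk (psiDegZero (heckeAlphaBarIntegral N ℓ) (heckeBetaBarIntegral N ℓ)
        (fundamentalIdentityAlong_beta N ℓ) Φ D) : JZero N) =
      Φ • (Φ • (Pic0.mk D : JZero N))
        - heckeOperatorAlong Kbar N ℓ (Φ • (Pic0.mk D : JZero N)) + ℓ • (Pic0.mk D : JZero N) := by
  rw [galois_smul_mk, galois_smul_mk,
    heckeOperatorAlong_eq (heckeAlphaBarIntegral N ℓ) (heckeBetaBarIntegral N ℓ)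
      (fundamentalIdentityAlong_beta N ℓ) (finiteAlong_alpha N ℓ) (normFormulaAlong_alpha N ℓ)]
  show _ = _ - Pic0.mk (Pic0.degZeroCorrespondence (heckeBetaBar Kbar N ℓ) (heckeAlphaBar Kbar N ℓ)
        (heckeBetaBarIntegral N ℓ) (heckeAlphaBarIntegral N ℓ)
        (fundamentalIdentityAlong_beta N ℓ) _) + _
  rw [← mk_nsmul, ← mk_sub, ← Pic0.mk_add]
  rfl

/-- the Galois action commutes with natural multiples. -/
theorem nsmul_galois_smul (N : ℕ) (m : ℕ) (σ : GalQ) (y : JZero N) :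
    m • (σ • y) = σ • (m • y) :=
  (map_nsmul (DistribSMul.toAddMonoidHom (JZero N) σ) m y).symm

theorem galois_smul_zero' (N : ℕ) (σ : GalQ) : σ • (0 : JZero N) = 0 :=
  map_zero (DistribSMul.toAddMonoidHom (JZero N) σ)

/-- **Eichler–Shimura on `p`-power torsion**, operator form, no commutativity hypothesis. -/
theorem es_eq_zero (N p ℓ : ℕ) [NeZero N] (hℓ : ℓ.Prime) (hndvd : ¬ ℓ ∣ N * p)
    (A : ValuationSubring Kbar) (hA : A.LiesOverPrime ℓ) (Φ : GalQ) (hΦ : A.IsFrobeniusAt Φ ℓ)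
    (x : JZero N) (n : ℕ) (hx : (p ^ n) • x = 0) :
    Φ • (Φ • x) - heckeOperatorBar N ⟨ℓ, hℓ⟩ (Φ • x) + ℓ • x = 0 := by
  haveI : NeZero ℓ := ⟨hℓ.ne_zero⟩
  haveI : Fact ℓ.Prime := ⟨hℓ⟩
  haveI := Fermat.Agent.S18.Trans.LiesOver.charP_residueField hA
  haveI := hasPrincipalDivisors_bar (N * ℓ)
  have hp0 : p ≠ 0 := by
    rintro rfl
    exact hndvd (by rw [mul_zero]; exact dvd_zero ℓ)
  obtain ⟨D, rfl⟩ := Pic0.mk_surjective x
  have hmk := mk_psiDegZero N ℓ Φ D
  have htors : (p ^ n) • (Pic0.mk (psiDegZero (heckeAlphaBarIntegral N ℓ)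
      (heckeBetaBarIntegral N ℓ) (fundamentalIdentityAlong_beta N ℓ) Φ D) : JZero N) = 0 := by
    have hcomm : (p ^ n) • (ℓ • (Pic0.mk D : JZero N)) = ℓ • ((p ^ n) • (Pic0.mk D : JZero N)) := by
      rw [← mul_nsmul', mul_comm, mul_nsmul']
    have h1 : (p ^ n) • (Φ • (Φ • (Pic0.mk D : JZero N))) = 0 := by
      rw [nsmul_galois_smul, nsmul_galois_smul, hx, galois_smul_zero', galois_smul_zero']
    have h2 : (p ^ n) • (heckeOperatorAlong Kbar N ℓ (Φ • (Pic0.mk D : JZero N))) = 0 := by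
      rw [← map_nsmul (heckeOperatorAlong Kbar N ℓ), nsmul_galois_smul, hx, galois_smul_zero',
        map_zero]
    have h3 : (p ^ n) • (ℓ • (Pic0.mk D : JZero N)) = 0 := by
      rw [hcomm, hx, smul_zero]
    rw [hmk, nsmul_add, nsmul_sub, h1, h2, h3, sub_zero, add_zero]
  obtain ⟨f, hf, hdiv⟩ := (nsmul_mk_eq_zero_iff (p ^ n) _).mp htors
  obtain ⟨g, hg, hgP⟩ := Frozen.divisor_key_of_localInput N p ℓ hp0 A hA Φ
    (Assemble.localInput N p ℓ hndvd A hA hΦ)
    (heckeAlphaBarIntegral N ℓ) (heckeBetaBarIntegral N ℓ) _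
    (psiDiv_mem_WDiv (heckeAlphaBarIntegral N ℓ) (heckeBetaBarIntegral N ℓ) A Φ
      (D : Divisor Kbar (modularFunctionFieldBar N))) n f hf
    (fun P => by
      have := hdiv P
      rw [coe_psiDegZero] at this
      rw [← this]
      push_cast
      rfl)
  have hzero : (Pic0.mk (psiDegZero (heckeAlphaBarIntegral N ℓ)
      (heckeBetaBarIntegral N ℓ) (fundamentalIdentityAlong_beta N ℓ) Φ D) : JZero N) = 0 :=
    (mk_eq_zero_iff _).mpr ⟨g, hg, fun P => by rw [coe_psiDegZero]; exact hgP P⟩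
  rw [hmk] at hzero
  exact hzero

/-- **Unramifiedness on `p`-power torsion**: inertia at `A` acts trivially. -/
theorem inertia_smul_eq (N p ℓ : ℕ) [NeZero N] (hℓ : ℓ.Prime) (hndvd : ¬ ℓ ∣ N * p)
    (A : ValuationSubring Kbar) (hA : A.LiesOverPrime ℓ) (σ : GalQ)
    (hσ : σ ∈ A.inertiaSubgroupIn ℚ)
    (x : JZero N) (n : ℕ) (hx : (p ^ n) • x = 0) :
    σ • x = x := by
  haveI : NeZero ℓ := ⟨hℓ.ne_zero⟩
  haveI : Fact ℓ.Prime := ⟨hℓ⟩
  haveI := Fermat.Agent.S18.Trans.LiesOver.charP_residueField hA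
  haveI := hasPrincipalDivisors_bar (N * ℓ)
  have hp0 : p ≠ 0 := by
    rintro rfl
    exact hndvd (by rw [mul_zero]; exact dvd_zero ℓ)
  obtain ⟨Φ, hΦ⟩ := Fermat.Agent.S37.FrobAt.exists_isFrobeniusAt_of ℓ hℓ A hA
  obtain ⟨D, rfl⟩ := Pic0.mk_surjective x
  set E : Divisor.degZero (K := Kbar) (F := modularFunctionFieldBar N) :=
    SemilinearAut.degZeroSMulHom (arithmeticGalois (modularFunctionFieldFull N) σ) D - D with hE
  have hmk : (Pic0.mk E : JZero N) = σ • (Pic0.mk D : JZero N) - Pic0.mk D := by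
    rw [hE, mk_sub, ← galois_smul_mk]
  have htors : (p ^ n) • (Pic0.mk E : JZero N) = 0 := by
    rw [hmk, nsmul_sub, nsmul_galois_smul, hx, galois_smul_zero', sub_zero]
  obtain ⟨f, hf, hdiv⟩ := (nsmul_mk_eq_zero_iff (p ^ n) _).mp htors
  have hEW : (E : Divisor Kbar (modularFunctionFieldBar N)) ∈
      WDiv (heckeAlphaBarIntegral N ℓ) (heckeBetaBarIntegral N ℓ) A Φ := by
    rw [hE, AddSubgroup.coe_sub, SemilinearAut.coe_degZeroSMulHom]
    exact inertia_sub_mem_WDiv _ _ A Φ hσ _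
  obtain ⟨g, hg, hgP⟩ := Frozen.divisor_key_of_localInput N p ℓ hp0 A hA Φ
    (Assemble.localInput N p ℓ hndvd A hA hΦ)
    (heckeAlphaBarIntegral N ℓ) (heckeBetaBarIntegral N ℓ) _ hEW n f hf
    (fun P => by
      rw [← hdiv P]
      push_cast
      rfl)
  have hzero : (Pic0.mk E : JZero N) = 0 := (mk_eq_zero_iff _).mpr ⟨g, hg, hgP⟩
  rw [hmk, sub_eq_zero] at hzero
  exact hzero

end Fermat.Agent.S29.Core.ESOp

end
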