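import Mathlib
import Fermat.Agent.S29.Interface
import Fermat.Agent.S29.Core.ESOp
import Fermat.Agent.S29.GaloisHecke

/-!
# S29, core block (C1b): the relations on `Vbig = k0 ⊗ J₀(N)(ℚ̄)[p]`

* `galTors_heckeTors` / `galBig_Tl` : the Galois action commutes with `T_ℓ`;
* `es_tors` / `es_big` : Eichler–Shimura `Φ² - T_ℓ Φ + ℓ = 0` for a Frobenius lift `Φ` at a prime
  `ℓ ∤ N p`;
* `inertia_tors` / `inertia_big` : inertia at `ℓ ∤ N p` acts trivially;
* `eigenSub a` : the common eigenspace of the `T_ℓ`, `ℓ ∤ N p`, for the eigenvalues `a ℓ`; it is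
  Galois-stable (`eigenSub_stable`), contains the vector of `NonVanish` and on it
  `Φ² - a ℓ Φ + ℓ = 0` (`es_eigenSub`).
-/

set_option autoImplicit false

noncomputable section

namespace Fermat.Agent.S29.Core.VbigRel

open AlgebraicCurve ModularCurve
open scoped TensorProduct
open Fermat.Agent.S29.Interface

local notation "Kb" => AlgebraicClosure ℚ
local notation "GalQ" => (AlgebraicClosure ℚ ≃ₐ[ℚ] AlgebraicClosure ℚ)

section Tors

variable (N p : ℕ) [NeZero N]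

/-- Galois commutes with `T_ℓ` on `J₀(N)[p]`. -/
theorem galTors_heckeTors (σ : GalQ) (ℓ : Nat.Primes) (x : Jp N p) :
    JZero.torsionGaloisRep N p σ (heckeTors N p ℓ x) =
      heckeTors N p ℓ (JZero.torsionGaloisRep N p σ x) := by
  apply Subtype.ext
  rw [JZero.coe_torsionGaloisRep_apply, coe_heckeTors, coe_heckeTors,
    JZero.coe_torsionGaloisRep_apply]
  exact Fermat.Agent.S29.GaloisHecke.heckeOperatorBar_smul N ℓ σ (x : JZero N)

theorem pow_one_nsmul_eq_zero (x : Jp N p) : (p ^ 1) • (x : JZero N) = 0 := by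
  have h := Pic0.mem_torsion.mp x.2
  rw [pow_one, ← natCast_zsmul]
  exact h

/-- Eichler–Shimura on `J₀(N)[p]`. -/
theorem es_tors (ℓ : Nat.Primes) (hndvd : ¬ (ℓ : ℕ) ∣ N * p)
    (A : ValuationSubring Kb) (hA : A.LiesOverPrime ℓ) (Φ : GalQ) (hΦ : A.IsFrobeniusAt Φ ℓ)
    (x : Jp N p) :
    JZero.torsionGaloisRep N p Φ (JZero.torsionGaloisRep N p Φ x)
      - heckeTors N p ℓ (JZero.torsionGaloisRep N p Φ x) + ((ℓ : ℕ) : ZMod p) • x = 0 := by
  apply Subtype.ext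
  have h := Fermat.Agent.S29.Core.ESOp.es_eq_zero N p ℓ ℓ.2 hndvd A hA Φ hΦ (x : JZero N) 1
    (pow_one_nsmul_eq_zero N p x)
  rw [Nat.cast_smul_eq_nsmul]
  rw [AddSubgroup.coe_add, AddSubgroup.coe_sub, AddSubgroup.coe_nsmul, coe_heckeTors,
    JZero.coe_torsionGaloisRep_apply, JZero.coe_torsionGaloisRep_apply, AddSubgroup.coe_zero]
  exact h

/-- inertia at `ℓ ∤ N p` acts trivially on `J₀(N)[p]`. -/
theorem inertia_tors (ℓ : Nat.Primes) (hndvd : ¬ (ℓ : ℕ) ∣ N * p)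
    (A : ValuationSubring Kb) (hA : A.LiesOverPrime ℓ) (σ : GalQ)
    (hσ : σ ∈ A.inertiaSubgroupIn ℚ) (x : Jp N p) :
    JZero.torsionGaloisRep N p σ x = x := by
  apply Subtype.ext
  rw [JZero.coe_torsionGaloisRep_apply]
  exact Fermat.Agent.S29.Core.ESOp.inertia_smul_eq N p ℓ ℓ.2 hndvd A hA σ hσ (x : JZero N) 1
    (pow_one_nsmul_eq_zero N p x)

end Tors

section Big

variable (N p : ℕ) [NeZero N] (k0 : Type) [Field k0] [Algebra (ZMod p) k0]

/-- Galois commutes with `T_ℓ` on `Vbig`. -/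
theorem galBig_Tl (σ : GalQ) (ℓ : Nat.Primes) (v : Vbig N p k0) :
    galBig N p k0 σ (Tl N p k0 ℓ v) = Tl N p k0 ℓ (galBig N p k0 σ v) := by
  induction v using TensorProduct.induction_on with
  | zero => simp only [map_zero]
  | tmul c x => rw [Tl_tmul, galBig_tmul, galBig_tmul, Tl_tmul, galTors_heckeTors]
  | add x y hx hy => rw [map_add, map_add, hx, hy, map_add, map_add]

theorem natCast_smul_tmul (n : ℕ) (c : k0) (x : Jp N p) :
    (n : k0) • (c ⊗ₜ[ZMod p] x) = c ⊗ₜ[ZMod p] ((n : ZMod p) • x) := by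
  have h1 : ((n : ZMod p) • c : k0) = (n : k0) * c := by rw [Algebra.smul_def, map_natCast]
  rw [TensorProduct.smul_tmul', smul_eq_mul, ← h1, TensorProduct.smul_tmul]

/-- Eichler–Shimura on `Vbig`. -/
theorem es_big (ℓ : Nat.Primes) (hndvd : ¬ (ℓ : ℕ) ∣ N * p)
    (A : ValuationSubring Kb) (hA : A.LiesOverPrime ℓ) (Φ : GalQ) (hΦ : A.IsFrobeniusAt Φ ℓ)
    (v : Vbig N p k0) :
    galBig N p k0 Φ (galBig N p k0 Φ v) - Tl N p k0 ℓ (galBig N p k0 Φ v)
      + ((ℓ : ℕ) : k0) • v = 0 := by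
  induction v using TensorProduct.induction_on with
  | zero => simp
  | tmul c x =>
    rw [galBig_tmul, galBig_tmul, Tl_tmul, natCast_smul_tmul, ← TensorProduct.tmul_sub,
      ← TensorProduct.tmul_add, es_tors N p ℓ hndvd A hA Φ hΦ x, TensorProduct.tmul_zero]
  | add x y hx hy =>
    rw [map_add, map_add, map_add, smul_add]
    have : galBig N p k0 Φ (galBig N p k0 Φ x) + galBig N p k0 Φ (galBig N p k0 Φ y)
        - (Tl N p k0 ℓ (galBig N p k0 Φ x) + Tl N p k0 ℓ (galBig N p k0 Φ y))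
        + (((ℓ : ℕ) : k0) • x + ((ℓ : ℕ) : k0) • y) =
        (galBig N p k0 Φ (galBig N p k0 Φ x) - Tl N p k0 ℓ (galBig N p k0 Φ x)
          + ((ℓ : ℕ) : k0) • x)
        + (galBig N p k0 Φ (galBig N p k0 Φ y) - Tl N p k0 ℓ (galBig N p k0 Φ y)
          + ((ℓ : ℕ) : k0) • y) := by abel
    rw [this, hx, hy, add_zero]

/-- inertia at `ℓ ∤ N p` acts trivially on `Vbig`. -/
theorem inertia_big (ℓ : Nat.Primes) (hndvd : ¬ (ℓ : ℕ) ∣ N * p)
    (A : ValuationSubring Kb) (hA : A.LiesOverPrime ℓ) (σ : GalQ)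
    (hσ : σ ∈ A.inertiaSubgroupIn ℚ) : galBig N p k0 σ = 1 := by
  apply LinearMap.ext
  intro v
  rw [Module.End.one_apply]
  induction v using TensorProduct.induction_on with
  | zero => rw [map_zero]
  | tmul c x => rw [galBig_tmul, inertia_tors N p ℓ hndvd A hA σ hσ x]
  | add x y hx hy => rw [map_add, hx, hy]

/-- the common eigenspace of the `T_ℓ`, `ℓ ∤ N p`, with eigenvalues `a ℓ`. -/
def eigenSub (a : Nat.Primes → k0) : Submodule k0 (Vbig N p k0) where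
  carrier := {v | ∀ ℓ : Nat.Primes, ¬ (ℓ : ℕ) ∣ N * p → Tl N p k0 ℓ v = a ℓ • v}
  zero_mem' := fun ℓ _ => by rw [map_zero, smul_zero]
  add_mem' := fun {x y} hx hy ℓ hℓ => by rw [map_add, hx ℓ hℓ, hy ℓ hℓ, smul_add]
  smul_mem' := fun c x hx ℓ hℓ => by rw [map_smul, hx ℓ hℓ, smul_comm]

variable {N p k0}

theorem mem_eigenSub {a : Nat.Primes → k0} {v : Vbig N p k0} :
    v ∈ eigenSub N p k0 a ↔
      ∀ ℓ : Nat.Primes, ¬ (ℓ : ℕ) ∣ N * p → Tl N p k0 ℓ v = a ℓ • v := Iff.rfl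

/-- the eigenspace is Galois-stable. -/
theorem eigenSub_stable (a : Nat.Primes → k0) (σ : GalQ) :
    eigenSub N p k0 a ≤ (eigenSub N p k0 a).comap (galBig N p k0 σ) := by
  intro v hv ℓ hℓ
  rw [← galBig_Tl, hv ℓ hℓ, map_smul]

/-- `NonVanish` gives a nonzero vector of the eigenspace. -/
theorem exists_mem_eigenSub {a : Nat.Primes → k0} (h : NonVanish N p k0 a) :
    ∃ v : Vbig N p k0, v ≠ 0 ∧ v ∈ eigenSub N p k0 a := h

/-- Eichler–Shimura on the eigenspace: `Φ² - a_ℓ Φ + ℓ = 0`. -/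
theorem es_eigenSub (a : Nat.Primes → k0) (ℓ : Nat.Primes) (hndvd : ¬ (ℓ : ℕ) ∣ N * p)
    (A : ValuationSubring Kb) (hA : A.LiesOverPrime ℓ) (Φ : GalQ) (hΦ : A.IsFrobeniusAt Φ ℓ)
    {v : Vbig N p k0} (hv : v ∈ eigenSub N p k0 a) :
    galBig N p k0 Φ (galBig N p k0 Φ v) - a ℓ • galBig N p k0 Φ v + ((ℓ : ℕ) : k0) • v = 0 := by
  have h := es_big N p k0 ℓ hndvd A hA Φ hΦ v
  rwa [eigenSub_stable a Φ hv ℓ hndvd] at h

end Big

end Fermat.Agent.S29.Core.VbigRel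

end
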